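/-
TEAM CFT -> S55, block [GLOB-HP] (architect helper73): the Hasse principle for the `p`-primary part
of `H²(G, Lˣ)`, `L` a number field.

Formalism (same as CFT/Local): a finite Galois extension is a finite group `G` acting faithfully on
a field `L`; the base field is the fixed field; subgroups are free of charge.

File 1: definitions.
-/
import Fermat.Agent.CFT.Local.Interface
import Fermat.Agent.CFT.HNT.Defs

set_option autoImplicit false

noncomputable section

namespace Fermat.Agent.CFT.HPA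

open CategoryTheory groupCohomology Fermat.Agent.CFT.Local Fermat.Agent.CFT.HNT

attribute [local instance] Units.mulDistribMulActionRight

/-- A localisation datum for `(G, L)`: a finite group `G'` acting faithfully on a field `L'`,
`f : G' → G`, `j : L → L'` equivariant.  (Think: `L' = L_w`, `G'` = decomposition group.) -/
structure Datum (G L : Type) [Group G] [Field L] [MulSemiringAction G L] where
  G' : Type
  L' : Type
  [grp : Group G']
  [fin : Finite G']
  [fld : NormedField L']
  [act : MulSemiringAction G' L']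
  f : G' →* G
  j : L →+* L'
  equivariant : ∀ (g : G') (x : L), j (f g • x) = g • j x
  locAct : LocAct G' L'

attribute [instance] Datum.grp Datum.fin Datum.fld Datum.act

variable {G L : Type} [Group G] [Field L] [MulSemiringAction G L]

/-- the map `Lˣ → L'ˣ` as a morphism of representations over `f`. -/
def Datum.jRep (D : Datum G L) : Rep.res D.f (unitsRep G L) ⟶ unitsRep D.G' D.L' :=
  Rep.ofHom ⟨(MonoidHom.toAdditive (Units.map (D.j : L →* D.L'))).toIntLinearMap, fun g => by
    ext x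
    exact D.equivariant g _⟩

/-- localisation `H²(G, Lˣ) → H²(G', L'ˣ)`. -/
abbrev Datum.loc (D : Datum G L) :
    groupCohomology (unitsRep G L) 2 ⟶ groupCohomology (unitsRep D.G' D.L') 2 :=
  groupCohomology.map D.f D.jRep 2

/-- `x` is locally trivial with respect to the family `𝓓`. -/
def LT {ι : Type} (𝓓 : ι → Datum G L) (x : groupCohomology (unitsRep G L) 2) : Prop :=
  ∀ i, (𝓓 i).loc.hom x = 0

/-- restriction of a datum to a subgroup `H ≤ G` (`G'` is replaced by `f⁻¹ H`). -/
def Datum.restrict (D : Datum G L) (H : Subgroup G) : Datum H L where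
  G' := H.comap D.f
  L' := D.L'
  f := D.f.subgroupComap H
  j := D.j
  equivariant g x := D.equivariant g.1 x
  locAct := D.locAct.subgroup _

/-- the "norm" `∏_{k<p} φᵏ β` -/
def cycNorm {G L : Type} [Group G] [Field L] [MulSemiringAction G L] (p : ℕ) (φ : G) (β : Lˣ) :
    Lˣ := ∏ k ∈ Finset.range p, φ ^ k • β

/-- The Hasse norm theorem for all layers `H ⊵ N`, `[H : N] = p`, of `G`, with respect to `𝓓`:
if `b ∈ (L^H)ˣ` is a norm from `L'^{N'}` at every datum whose group meets the coset `φ N`, then `b`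
is a norm from `L^N`. -/
def LayerOK {ι : Type} (𝓓 : ι → Datum G L) (p : ℕ) : Prop :=
  ∀ (H N : Subgroup G), N ≤ H → (∀ h ∈ H, ∀ n ∈ N, h * n * h⁻¹ ∈ N) → N.relIndex H = p →
    ∀ φ ∈ H, φ ∉ N → ∀ b : Lˣ, (∀ h ∈ H, h • b = b) →
    (∀ (i : ι) (φ' : (𝓓 i).G'), φ⁻¹ * (𝓓 i).f φ' ∈ N →
      ∃ y : (𝓓 i).L'ˣ, (∀ n' : (𝓓 i).G', (𝓓 i).f n' ∈ N → n' • y = y) ∧
        Units.map ((𝓓 i).j : L →* (𝓓 i).L') b = cycNorm p φ' y) →
    ∃ β : Lˣ, (∀ n ∈ N, n • β = β) ∧ b = cycNorm p φ β

section NF

variable [NumberField L]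

/-- `σ` fixes the place `P` of `L`. -/
def Stab (P : Pl L) (σ : G) : Prop := ∀ x : L, P.valuation L (σ • x) = P.valuation L x

/-- the datum `D` induces the place `P`: the norm `‖j x‖` is equivalent to the `P`-adic valuation,
`j L` is dense in `L'`, and `G'` is the full decomposition group. -/
structure Induces (D : Datum G L) (P : Pl L) : Prop where
  cmp : ∃ c : ℝ, 0 < c ∧ c < 1 ∧ ∀ (x : L) (n : ℤ),
    ‖D.j x‖ ≤ c ^ n ↔ P.valuation L x ≤ WithZero.exp (-n)
  dense : ∀ (y : D.L') (ε : ℝ), 0 < ε → ∃ x : L, ‖y - D.j x‖ < ε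
  decomp : ∀ σ : G, Stab P σ → ∃ g : D.G', D.f g = σ

/-- `b` is `P`-adically approximable by norms `∏_{k<p} φᵏ β`, `β ∈ (L^N)ˣ`. -/
def ApproxFix (p : ℕ) (N : Subgroup G) (φ : G) (P : Pl L) (b : Lˣ) : Prop :=
  ∀ n : ℕ, ∃ β : Lˣ, (∀ ν ∈ N, ν • β = β) ∧ Near P n ((b : L) / (cycNorm p φ β : Lˣ))

/-- every finite place of `L` is induced by a member of the family. -/
def Covers {ι : Type} (𝓓 : ι → Datum G L) : Prop := ∀ P : Pl L, ∃ i, Induces (𝓓 i) P

end NF

end Fermat.Agent.CFT.HPA

end
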