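/-
TEAM CFT -> S55, block [GLOB-HP] (architect helper73).  File 2: the abstract packages.

  HNT (CFT/HNT)  ==(F1)==>  HNTfix  ==(F2,F3 + LOC norm index)==>  LayerOK for a covering family
  LayerOK  ==(F4: p-groups, inf-res, cyclic classes; F5: Sylow)==>  Hasse principle for H²(G,Lˣ)(p)
-/
import Fermat.Agent.CFT.HPA.Defs
import Fermat.Agent.CFT.HNT.Interface

set_option autoImplicit false

noncomputable section

namespace Fermat.Agent.CFT.HPA

open CategoryTheory groupCohomology Fermat.Agent.CFT.Local Fermat.Agent.CFT.HNT NumberField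

attribute [local instance] Units.mulDistribMulActionRight

/-- (S10) at a place which is not `NonSplit` every element is a local norm. -/
def Stmt_SplitLN : Prop :=
  ∀ (p : ℕ) (K M : Type) [Field K] [NumberField K] [Field M] [NumberField M] [Algebra K M]
    [IsGalois K M], p.Prime → Module.finrank K M = p → ∀ v : Pl K, ¬ NonSplit M v →
    ∀ b : K, b ≠ 0 → IsApproxNorm K M v b

/-- HNT with hypotheses at the non split places only. -/
def Stmt_HNT' : Prop :=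
  ∀ (p : ℕ) (K M : Type) [Field K] [NumberField K] [Field M] [NumberField M] [Algebra K M]
    [IsGalois K M], p.Prime → Module.finrank K M = p → IsTotallyComplex K → Stmt_LI K M →
    ∀ b : K, b ≠ 0 → (∀ v : Pl K, NonSplit M v → IsApproxNorm K M v b) →
    ∃ β : M, Algebra.norm K β = b

/-- (F1) the Hasse norm theorem for a layer `L^N / L^H` of a group acting on a number field; all
statements live in `L`. -/
def Stmt_HNTfix : Prop :=
  ∀ (p : ℕ) (G L : Type) [Group G] [Finite G] [Field L] [NumberField L] [MulSemiringAction G L]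
    [FaithfulSMul G L], p.Prime → p ≠ 2 → (∃ ζ : L, IsPrimitiveRoot ζ p ∧ ∀ g : G, g • ζ = ζ) →
    ∀ (H N : Subgroup G), N ≤ H → (∀ h ∈ H, ∀ n ∈ N, h * n * h⁻¹ ∈ N) → N.relIndex H = p →
    ∀ φ ∈ H, φ ∉ N →
    (∀ P : Pl L, (∃ σ : G, φ⁻¹ * σ ∈ N ∧ Stab P σ) →
      ∃ b₀ : Lˣ, (∀ h ∈ H, h • b₀ = b₀) ∧ ¬ ApproxFix p N φ P b₀) →
    ∀ b : Lˣ, (∀ h ∈ H, h • b = b) →
    (∀ P : Pl L, (∃ σ : G, φ⁻¹ * σ ∈ N ∧ Stab P σ) → ApproxFix p N φ P b) →
    ∃ β : Lˣ, (∀ n ∈ N, n • β = β) ∧ b = cycNorm p φ β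

/-- (F2) density of `j (L^N)` in `L'^{N'}`, `N' = f⁻¹ N`. -/
def Stmt_DenseFix : Prop :=
  ∀ (G L : Type) [Group G] [Finite G] [Field L] [NumberField L] [MulSemiringAction G L]
    (D : Datum G L) (P : Pl L), Induces D P → ∀ (N : Subgroup G) (y : D.L'),
    (∀ n' : D.G', D.f n' ∈ N → n' • y = y) → ∀ ε : ℝ, 0 < ε →
    ∃ β : L, (∀ n ∈ N, n • β = β) ∧ ‖y - D.j β‖ < ε

/-- (F3) a covering family satisfies the Hasse norm theorem in all layers. -/
def Stmt_ALC : Prop :=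
  ∀ (p : ℕ) (G L : Type) [Group G] [Finite G] [Field L] [NumberField L] [MulSemiringAction G L]
    [FaithfulSMul G L], p.Prime → p ≠ 2 → (∃ ζ : L, IsPrimitiveRoot ζ p ∧ ∀ g : G, g • ζ = ζ) →
    ∀ (ι : Type) (𝓓 : ι → Datum G L), Covers 𝓓 → LayerOK 𝓓 p

/-- (F4a) a class killed by restriction to `N` (`G/N = ⟨φ N⟩` cyclic) is an inflated cyclic class.
Pure algebra. -/
def Stmt_ExistsInfCyc : Prop :=
  ∀ (G L : Type) [Group G] [Finite G] [Field L] [MulSemiringAction G L] [FaithfulSMul G L]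
    (N : Subgroup G) [N.Normal] (φ : G), (∀ x : G ⧸ N, x ∈ Subgroup.zpowers (φ : G ⧸ N)) →
    ∀ x : groupCohomology (unitsRep G L) 2, (P0.resMap (unitsRep G L) N 2).hom x = 0 →
    ∃ (b : Lˣ) (_ : b ∈ fixedU G L) (hc : infCyc G L N φ b ∈ cocycles₂ (unitsRep G L)),
      (H2π (unitsRep G L)).hom ⟨_, hc⟩ = x

/-- (F4b) localisation of an inflated cyclic class. -/
def Stmt_LocInfCyc : Prop :=
  ∀ (G L : Type) [Group G] [Finite G] [Field L] [MulSemiringAction G L]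
    (N : Subgroup G) [N.Normal] (φ : G), (∀ x : G ⧸ N, x ∈ Subgroup.zpowers (φ : G ⧸ N)) →
    ∀ (D : Datum G L) (φ' : D.G'), φ⁻¹ * D.f φ' ∈ N →
    ∀ (b : Lˣ) (hc : infCyc G L N φ b ∈ cocycles₂ (unitsRep G L))
      (hc' : infCyc D.G' D.L' (N.comap D.f) φ' (Units.map (D.j : L →* D.L') b) ∈
        cocycles₂ (unitsRep D.G' D.L')),
      (∀ x : D.G' ⧸ N.comap D.f, x ∈ Subgroup.zpowers (φ' : D.G' ⧸ N.comap D.f)) ∧
      Nat.card (D.G' ⧸ N.comap D.f) = Nat.card (G ⧸ N) ∧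
      D.loc.hom ((H2π (unitsRep G L)).hom ⟨_, hc⟩) = (H2π (unitsRep D.G' D.L')).hom ⟨_, hc'⟩

/-- (F4c) heredity: `LayerOK` and `LT` pass to subgroups. -/
def Stmt_Restrict : Prop :=
  ∀ (G L : Type) [Group G] [Field L] [MulSemiringAction G L] (ι : Type) (𝓓 : ι → Datum G L)
    (H : Subgroup G),
    (∀ p : ℕ, LayerOK 𝓓 p → LayerOK (fun i => (𝓓 i).restrict H) p) ∧
    (∀ x, LT 𝓓 x → LT (fun i => (𝓓 i).restrict H) ((P0.resMap (unitsRep G L) H 2).hom x))

/-- (F4) the Hasse principle for `p`-groups. -/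
def Stmt_HPp : Prop :=
  ∀ (p : ℕ) (G L : Type) [Group G] [Finite G] [Field L] [MulSemiringAction G L]
    [FaithfulSMul G L], p.Prime → IsPGroup p G → ∀ (ι : Type) (𝓓 : ι → Datum G L), LayerOK 𝓓 p →
    ∀ x : groupCohomology (unitsRep G L) 2, LT 𝓓 x → x = 0

/-- (F5) **the Hasse principle** for the `p`-primary part of `H²(G, Lˣ)`. -/
def Stmt_HP : Prop :=
  ∀ (p : ℕ) (G L : Type) [Group G] [Finite G] [Field L] [MulSemiringAction G L]
    [FaithfulSMul G L], p.Prime → ∀ (ι : Type) (𝓓 : ι → Datum G L), LayerOK 𝓓 p →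
    ∀ x : groupCohomology (unitsRep G L) 2, (∃ m : ℕ, p ^ m • x = 0) → LT 𝓓 x → x = 0

end Fermat.Agent.CFT.HPA

end
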